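import Mathlib

/-!
# S33, piece EIG (core), part 2: coordinates on `O ⊗[ℤ] M`, `M` killed by `p`   (helper452)

`O / p O` finite.  There are `o i ∈ O` and additive `ℓ i : O →+ ZMod p` (`i < d`) with
`a ≡ ∑ (ℓ i a) o i mod p` for all `a`; for a `ZMod p`-module `M` the coordinate maps
`coordMap (ℓ i) : O ⊗[ℤ] M →+ M`, `a ⊗ y ↦ ℓ i a • y`, satisfy `x = ∑ o i ⊗ coordMap (ℓ i) x`;
in particular they are jointly injective.
-/

set_option autoImplicit false
set_option linter.style.haveILetI false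

noncomputable section

namespace Fermat.Agent.S33.H452

open TensorProduct

section decomp

variable (p : ℕ) [Fact p.Prime] (O : Type*) [CommRing O]

/-- a system of coordinates on `O / p O` -/
def IsCoordSystem {d : ℕ} (o : Fin d → O) (ℓ : Fin d → O →+ ZMod p) : Prop :=
  ∀ a : O, ∃ b : O, a = ∑ i, (((ℓ i a).val : ℕ) : O) * o i + (p : O) * b

theorem exists_coords_aux (Q : Type*) [AddCommGroup Q] [Module (ZMod p) Q] [Finite Q] :
    ∃ (d : ℕ) (b : Fin d → Q) (ℓ : Fin d → Q →+ ZMod p),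
      ∀ x : Q, x = ∑ i, ((ℓ i x).val : ℕ) • b i := by
  classical
  haveI h1 : Module.Finite (ZMod p) Q := Module.Finite.of_finite
  let b := Module.finBasis (ZMod p) Q
  refine ⟨_, fun i => b i, fun i => (b.coord i).toAddMonoidHom, fun x => ?_⟩
  conv_lhs => rw [← b.sum_repr x]
  refine Finset.sum_congr rfl (fun i _ => ?_)
  show b.repr x i • b i = ((b.repr x i).val : ℕ) • b i
  rw [← Nat.cast_smul_eq_nsmul (ZMod p), ZMod.natCast_zmod_val]

theorem exists_coords (hfin : Finite (O ⧸ Ideal.span {(p : O)})) :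
    ∃ (d : ℕ) (o : Fin d → O) (ℓ : Fin d → O →+ ZMod p), IsCoordSystem p O o ℓ := by
  classical
  have hkill : ∀ x : O ⧸ Ideal.span {(p : O)}, p • x = 0 := by
    intro x
    obtain ⟨a, rfl⟩ := Ideal.Quotient.mk_surjective x
    rw [← map_nsmul, Ideal.Quotient.eq_zero_iff_mem, nsmul_eq_mul]
    exact Ideal.mul_mem_right _ _ (Ideal.subset_span rfl)
  obtain ⟨d, b, ℓ, hb⟩ := @exists_coords_aux p _ (O ⧸ Ideal.span {(p : O)}) _
    (AddCommGroup.zmodModule hkill) hfin
  refine ⟨d, fun i => Function.surjInv Ideal.Quotient.mk_surjective (b i),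
    fun i => (ℓ i).comp (Ideal.Quotient.mk (Ideal.span {(p : O)})).toAddMonoidHom,
    fun a => ?_⟩
  have h1 := hb (Ideal.Quotient.mk (Ideal.span {(p : O)}) a)
  have h3 : Ideal.Quotient.mk (Ideal.span {(p : O)}) (a - ∑ i,
      (((ℓ i (Ideal.Quotient.mk (Ideal.span {(p : O)}) a)).val : ℕ) : O) *
        Function.surjInv Ideal.Quotient.mk_surjective (b i)) = 0 := by
    rw [map_sub, map_sum, sub_eq_zero]
    conv_lhs => rw [h1]
    refine Finset.sum_congr rfl (fun i _ => ?_)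
    rw [map_mul, Function.surjInv_eq Ideal.Quotient.mk_surjective, map_natCast, nsmul_eq_mul]
  rw [Ideal.Quotient.eq_zero_iff_mem, Ideal.mem_span_singleton'] at h3
  obtain ⟨c, hc⟩ := h3
  refine ⟨c, ?_⟩
  have h4 : a = ∑ i, (((ℓ i (Ideal.Quotient.mk (Ideal.span {(p : O)}) a)).val : ℕ) : O) *
      Function.surjInv Ideal.Quotient.mk_surjective (b i) + c * (p : O) := by
    rw [hc]
    ring
  rw [mul_comm (p : O) c]
  exact h4

end decomp

section coord

variable {p : ℕ} [Fact p.Prime] {O : Type*} [CommRing O]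
variable {M : Type*} [AddCommGroup M] [Module (ZMod p) M]

/-- the coordinate map `a ⊗ y ↦ ℓ a • y` -/
def coordMap (ℓ : O →+ ZMod p) : O ⊗[ℤ] M →+ M :=
  TensorProduct.liftAddHom
    ({ toFun := fun a => (DistribMulAction.toAddMonoidHom M (ℓ a) : M →+ M)
       map_zero' := by
         ext y
         simp
       map_add' := fun a a' => by
         ext y
         simp [add_smul] } : O →+ M →+ M)
    (fun r a y => by
      show ℓ (r • a) • y = ℓ a • (r • y)
      rw [map_zsmul, smul_assoc, smul_comm])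

@[simp] theorem coordMap_tmul (ℓ : O →+ ZMod p) (a : O) (y : M) :
    coordMap ℓ (a ⊗ₜ[ℤ] y) = ℓ a • y := rfl

theorem natCast_tmul_eq (n : ℕ) (a : O) (y : M) :
    (((n : ℕ) : O) * a) ⊗ₜ[ℤ] y = a ⊗ₜ[ℤ] (n • y) := by
  rw [← nsmul_eq_mul, ← natCast_zsmul, ← natCast_zsmul, TensorProduct.smul_tmul]

theorem p_mul_tmul_eq_zero (b : O) (y : M) : ((p : O) * b) ⊗ₜ[ℤ] y = 0 := by
  rw [natCast_tmul_eq]
  have : p • y = 0 := by
    rw [← Nat.cast_smul_eq_nsmul (ZMod p), ZMod.natCast_self, zero_smul]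
  rw [this, tmul_zero]

/-- **reconstruction from the coordinates** -/
theorem eq_sum_tmul_coordMap {d : ℕ} {o : Fin d → O} {ℓ : Fin d → O →+ ZMod p}
    (h : IsCoordSystem p O o ℓ) (x : O ⊗[ℤ] M) :
    x = ∑ i, o i ⊗ₜ[ℤ] coordMap (ℓ i) x := by
  induction x using TensorProduct.induction_on with
  | zero => simp
  | tmul a y =>
    obtain ⟨b, hb⟩ := h a
    conv_lhs => rw [hb]
    rw [add_tmul, p_mul_tmul_eq_zero, add_zero, sum_tmul]
    refine Finset.sum_congr rfl (fun i _ => ?_)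
    rw [natCast_tmul_eq, coordMap_tmul, ← Nat.cast_smul_eq_nsmul (ZMod p),
      ZMod.natCast_zmod_val]
  | add x y hx hy =>
    conv_lhs => rw [hx, hy]
    rw [← Finset.sum_add_distrib]
    refine Finset.sum_congr rfl (fun i _ => ?_)
    rw [map_add, tmul_add]

theorem eq_zero_of_coordMap_eq_zero {d : ℕ} {o : Fin d → O} {ℓ : Fin d → O →+ ZMod p}
    (h : IsCoordSystem p O o ℓ) (x : O ⊗[ℤ] M) (hx : ∀ i, coordMap (ℓ i) x = 0) : x = 0 := by
  rw [eq_sum_tmul_coordMap h x]
  refine Finset.sum_eq_zero (fun i _ => ?_)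
  rw [hx i, tmul_zero]

end coord

end Fermat.Agent.S33.H452

end
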