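import Mathlib

/-!
# S33, piece EIG (core), part 1: augmentation subgroups and dévissage   (helper452)

Light formalism: a "`G`-module" is an abelian group `X` with a family `act : G → X →+ X`
(no axioms are needed here).  For a set `I ⊆ G` and a subgroup `Y ≤ X`,
`iAug act I Y := ⟨act σ y - y : σ ∈ I, y ∈ Y⟩`.

* `le_iAug_of_dev` : right exactness of coinvariants, subgroup form.
* `le_iAug_of_coords` : if `Y ≤ X` is stable, `f j : X →+ J` (`j < d`) are equivariant and jointly
  injective on `Y`, and every stable subgroup of `J` all of whose elements satisfy `Q` is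
  generated by its augmentation, then so is `Y` as soon as all `f j y` (`y ∈ Y`) satisfy `Q`.
-/

set_option autoImplicit false

namespace Fermat.Agent.S33.H452

section aug

variable {G : Type*} {X X' : Type*} [AddCommGroup X] [AddCommGroup X']

/-- The augmentation subgroup `⟨act σ y - y : σ ∈ I, y ∈ Y⟩`. -/
def iAug (act : G → X →+ X) (I : Set G) (Y : AddSubgroup X) : AddSubgroup X :=
  AddSubgroup.closure {z | ∃ σ ∈ I, ∃ y ∈ Y, z = act σ y - y}

variable {act : G → X →+ X} {act' : G → X' →+ X'} {I : Set G}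

theorem sub_mem_iAug {Y : AddSubgroup X} {σ : G} (hσ : σ ∈ I) {y : X} (hy : y ∈ Y) :
    act σ y - y ∈ iAug act I Y :=
  AddSubgroup.subset_closure ⟨σ, hσ, y, hy, rfl⟩

theorem iAug_mono {Y Z : AddSubgroup X} (h : Y ≤ Z) : iAug act I Y ≤ iAug act I Z := by
  unfold iAug
  apply AddSubgroup.closure_mono
  rintro z ⟨σ, hσ, y, hy, rfl⟩
  exact ⟨σ, hσ, y, h hy, rfl⟩

theorem iAug_le_self {Y : AddSubgroup X} (hY : ∀ σ ∈ I, ∀ y ∈ Y, act σ y ∈ Y) :
    iAug act I Y ≤ Y := by
  unfold iAug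
  rw [AddSubgroup.closure_le]
  rintro z ⟨σ, hσ, y, hy, rfl⟩
  exact Y.sub_mem (hY σ hσ y hy) hy

/-- An equivariant additive map sends `I_aug Y` into `I_aug Y'` if it sends `Y` into `Y'`. -/
theorem map_mem_iAug (f : X →+ X') (hf : ∀ σ ∈ I, ∀ x : X, f (act σ x) = act' σ (f x))
    {Y : AddSubgroup X} {Y' : AddSubgroup X'} (hYY' : ∀ y ∈ Y, f y ∈ Y') {x : X}
    (hx : x ∈ iAug act I Y) : f x ∈ iAug act' I Y' := by
  unfold iAug at hx
  induction hx using AddSubgroup.closure_induction with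
  | mem z hz =>
    obtain ⟨σ, hσ, y, hy, rfl⟩ := hz
    rw [map_sub, hf σ hσ]
    exact sub_mem_iAug hσ (hYY' y hy)
  | zero => rw [map_zero]; exact AddSubgroup.zero_mem _
  | add a b _ _ ha hb => rw [map_add]; exact AddSubgroup.add_mem _ ha hb
  | neg a _ ha => rw [map_neg]; exact AddSubgroup.neg_mem _ ha

/-- Every element of `I_aug (f Y)` is the image of an element of `I_aug Y`. -/
theorem exists_mem_iAug_of_mem_iAug_map (f : X →+ X')
    (hf : ∀ σ ∈ I, ∀ x : X, f (act σ x) = act' σ (f x)) {Y : AddSubgroup X} {z : X'}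
    (hz : z ∈ iAug act' I (Y.map f)) : ∃ x ∈ iAug act I Y, f x = z := by
  unfold iAug at hz
  induction hz using AddSubgroup.closure_induction with
  | mem w hw =>
    obtain ⟨σ, hσ, y', hy', rfl⟩ := hw
    obtain ⟨y, hy, rfl⟩ := AddSubgroup.mem_map.mp hy'
    exact ⟨act σ y - y, sub_mem_iAug hσ hy, by rw [map_sub, hf σ hσ]⟩
  | zero => exact ⟨0, AddSubgroup.zero_mem _, map_zero f⟩
  | add a b _ _ ha hb =>
    obtain ⟨x, hx, rfl⟩ := ha
    obtain ⟨y, hy, rfl⟩ := hb
    exact ⟨x + y, AddSubgroup.add_mem _ hx hy, map_add f x y⟩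
  | neg a _ ha =>
    obtain ⟨x, hx, rfl⟩ := ha
    exact ⟨-x, AddSubgroup.neg_mem _ hx, map_neg f x⟩

/-- **Dévissage** (right exactness of coinvariants, subgroup form). -/
theorem le_iAug_of_dev (f : X →+ X') (hf : ∀ σ ∈ I, ∀ x : X, f (act σ x) = act' σ (f x))
    {A B : AddSubgroup X} (hB : ∀ σ ∈ I, ∀ y ∈ B, act σ y ∈ B)
    (hAB : ∀ b ∈ B, f b = 0 → b ∈ A) (hAle : A ≤ B) (hA : A ≤ iAug act I A)
    (hC : B.map f ≤ iAug act' I (B.map f)) : B ≤ iAug act I B := by
  intro b hb
  obtain ⟨z, hz, hzb⟩ :=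
    exists_mem_iAug_of_mem_iAug_map f hf (hC (AddSubgroup.mem_map_of_mem f hb))
  have hzB : z ∈ B := iAug_le_self hB hz
  have hbz : b - z ∈ A := hAB _ (B.sub_mem hb hzB) (by rw [map_sub, hzb, sub_self])
  have h1 : b - z ∈ iAug act I B := iAug_mono hAle (hA hbz)
  have h2 := AddSubgroup.add_mem _ h1 hz
  rwa [sub_add_cancel] at h2

end aug

section coords

variable {G : Type*} {X J : Type*} [AddCommGroup X] [AddCommGroup J]
variable {act : G → X →+ X} {actJ : G → J →+ J} {I : Set G}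

/-- **Coordinate dévissage.** -/
theorem le_iAug_of_coords (Q : J → Prop)
    (hK : ∀ Z : AddSubgroup J, (∀ g : G, ∀ z ∈ Z, actJ g z ∈ Z) → (∀ z ∈ Z, Q z) →
      Z ≤ iAug actJ I Z) :
    ∀ (d : ℕ) (f : Fin d → X →+ J), (∀ j (g : G) (x : X), f j (act g x) = actJ g (f j x)) →
      ∀ Y : AddSubgroup X, (∀ g : G, ∀ y ∈ Y, act g y ∈ Y) →
        (∀ y ∈ Y, (∀ j, f j y = 0) → y = 0) → (∀ y ∈ Y, ∀ j, Q (f j y)) →
        Y ≤ iAug act I Y := by
  intro d
  induction d with
  | zero =>
    intro f _ Y _ hinj _ y hy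
    have : y = 0 := hinj y hy (fun j => j.elim0)
    rw [this]
    exact AddSubgroup.zero_mem _
  | succ d ih =>
    intro f hf Y hY hinj hQ
    -- the kernel of the last coordinate
    let A : AddSubgroup X := Y ⊓ (f (Fin.last d)).ker
    have hAY : A ≤ Y := inf_le_left
    have hAstab : ∀ g : G, ∀ y ∈ A, act g y ∈ A := by
      intro g y hy
      refine ⟨hY g y hy.1, ?_⟩
      have h0 : f (Fin.last d) y = 0 := hy.2
      show f (Fin.last d) (act g y) = 0
      rw [hf, h0, map_zero]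
    have hA : A ≤ iAug act I A := by
      refine ih (fun j => f j.castSucc) (fun j g x => hf _ g x) A hAstab ?_ ?_
      · intro y hy h0
        refine hinj y hy.1 (fun j => ?_)
        refine Fin.lastCases ?_ (fun i => ?_) j
        · exact hy.2
        · exact h0 i
      · intro y hy j
        exact hQ y hy.1 _
    -- the image under the last coordinate
    have hC : Y.map (f (Fin.last d)) ≤ iAug actJ I (Y.map (f (Fin.last d))) := by
      apply hK
      · rintro g _ ⟨y, hy, rfl⟩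
        exact ⟨act g y, hY g y hy, hf _ g y⟩
      · rintro _ ⟨y, hy, rfl⟩
        exact hQ y hy _
    exact le_iAug_of_dev (A := A) (f (Fin.last d)) (fun σ _ x => hf _ σ x)
      (fun σ _ y hy => hY σ y hy) (fun b hb h0 => ⟨hb, h0⟩) hAY hA hC

end coords

end Fermat.Agent.S33.H452
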