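import Fermat.Agent.S30.H529.TateTensor
import Fermat.Agent.S33.H452.Dev
import Fermat.Agent.S33.H452.Coord

/-!
# S33, piece EIG (core), part 3: coinvariants of the Tate eigenmodule   (helper452)

`J` an abelian group with an action of `G`, `I ⊆ G`, `O` a flat `ℤ`-algebra with `O / p O`
finite, `Λ = tateEigen p (1 ⊗ T) a ⊆ (ℕ → O ⊗ J)` the Tate eigenmodule (row S30, helper529).

`tate_coinv_core` : assume

* `(K)`: every `G`-stable subgroup `Z ≤ J` all of whose elements lie in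
  `𝒮⁺ = ⋃ₙ I_aug(J[pⁿ]) ∩ J[p]` is generated by its augmentation, `Z ≤ I_aug Z`;
* `p ^ c Λ ≤ I_aug Λ` for some `c`.

Then `Λ = I_aug Λ + p Λ`.

Proof.  Evaluation `ev₀ : Λ → O ⊗ J` has kernel `p Λ`; `ev₀ v = ev_c (p ^ c v)` lies in
`I_aug((O ⊗ J)[p ^ (c+1)]) ∩ (O ⊗ J)[p] = O ⊗ (I_aug(J[p ^ (c+1)]) ∩ J[p])` (flatness).  In
coordinates `O ⊗ J[p] ≅ J[p] ^ d` the image of `ev₀` is a stable subgroup with coordinates in
`𝒮⁺`; coordinate dévissage and `(K)`.
-/

set_option autoImplicit false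
set_option linter.unusedSectionVars false
set_option linter.style.haveILetI false

noncomputable section

namespace Fermat.Agent.S33.H452

open TensorProduct Fermat.Agent.S30.H529

section setup

variable (O : Type*) [CommRing O]
variable {G : Type*} [Group G]
variable (J : Type*) [AddCommGroup J] [DistribMulAction G J]

/-- the action on `J` as a family of additive maps -/
def actJ (g : G) : J →+ J := DistribMulAction.toAddMonoidHom J g

@[simp] theorem actJ_apply (g : G) (x : J) : actJ J g x = g • x := rfl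

/-- the action on `O ⊗ J` as a family of additive maps -/
def actX (g : G) : (O ⊗[ℤ] J) →+ (O ⊗[ℤ] J) := (tensorRep O J g).toAddMonoidHom

theorem actX_tmul (g : G) (o : O) (y : J) : actX O J g (o ⊗ₜ[ℤ] y) = o ⊗ₜ[ℤ] (g • y) := by
  show (actLin J g).baseChange O (o ⊗ₜ[ℤ] y) = _
  rw [LinearMap.baseChange_tmul]
  rfl

/-- the `m`-torsion of `J` as an additive subgroup -/
def torsJ (m : ℕ) : AddSubgroup J := (nsmulAddMonoidHom (α := J) m).ker

theorem mem_torsJ {m : ℕ} {x : J} : x ∈ torsJ J m ↔ m • x = 0 := by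
  unfold torsJ
  rw [AddMonoidHom.mem_ker]
  rfl

/-- the predicate `x ∈ 𝒮⁺` -/
def InSPlus (I : Set G) (p : ℕ) (x : J) : Prop :=
  p • x = 0 ∧ ∃ n : ℕ, x ∈ iAug (actJ J) I (torsJ J (p ^ n))

/-- **(K)** -/
def KeyProp (I : Set G) (p : ℕ) : Prop :=
  ∀ Z : AddSubgroup J, (∀ g : G, ∀ z ∈ Z, g • z ∈ Z) → (∀ z ∈ Z, InSPlus J I p z) →
    Z ≤ iAug (actJ J) I Z

end setup

section flat

variable (O : Type*) [CommRing O] [Module.Flat ℤ O]
variable {G : Type*} [Group G]
variable (J : Type*) [AddCommGroup J] [DistribMulAction G J]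

/-- `I_aug((O ⊗ J)[m]) ⊆ O ⊗ I_aug(J[m])`. -/
theorem iAug_tors_le_range (I : Set G) (m : ℕ) (x : O ⊗[ℤ] J)
    (hx : x ∈ iAug (actX O J) I
      ((nsmulAddMonoidHom (α := O ⊗[ℤ] J) m).ker)) :
    x ∈ LinearMap.range
      ((AddSubgroup.toIntSubmodule (iAug (actJ J) I (torsJ J m))).subtype.lTensor O) := by
  unfold iAug at hx
  induction hx using AddSubgroup.closure_induction with
  | mem z hz =>
    obtain ⟨σ, hσ, y, hy, rfl⟩ := hz
    have hy' : (m : ℤ) • y = 0 := by
      rw [AddMonoidHom.mem_ker] at hy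
      rw [natCast_zsmul]
      exact hy
    obtain ⟨w, rfl⟩ := exists_lTensor_eq_of_smul_eq_zero O (m : ℤ) y hy'
    clear hy hy'
    induction w using TensorProduct.induction_on with
    | zero =>
      simp
    | tmul o t =>
      have ht : (t : J) ∈ torsJ J m := by
        have := t.2
        rw [LinearMap.mem_ker, LinearMap.smul_apply, LinearMap.id_apply, natCast_zsmul] at this
        exact mem_torsJ J |>.2 this
      refine ⟨o ⊗ₜ[ℤ] ⟨σ • (t : J) - (t : J), sub_mem_iAug hσ ht⟩, ?_⟩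
      rw [LinearMap.lTensor_tmul, LinearMap.lTensor_tmul, Submodule.subtype_apply,
        Submodule.subtype_apply, actX_tmul, ← TensorProduct.tmul_sub]
    | add w w' hw hw' =>
      have : actX O J σ ((LinearMap.lTensor O (LinearMap.ker ((m : ℤ) •
          (LinearMap.id : J →ₗ[ℤ] J))).subtype) (w + w')) -
          (LinearMap.lTensor O (LinearMap.ker ((m : ℤ) •
          (LinearMap.id : J →ₗ[ℤ] J))).subtype) (w + w') =
          (actX O J σ ((LinearMap.lTensor O (LinearMap.ker ((m : ℤ) •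
          (LinearMap.id : J →ₗ[ℤ] J))).subtype) w) -
          (LinearMap.lTensor O (LinearMap.ker ((m : ℤ) •
          (LinearMap.id : J →ₗ[ℤ] J))).subtype) w) +
          (actX O J σ ((LinearMap.lTensor O (LinearMap.ker ((m : ℤ) •
          (LinearMap.id : J →ₗ[ℤ] J))).subtype) w') -
          (LinearMap.lTensor O (LinearMap.ker ((m : ℤ) •
          (LinearMap.id : J →ₗ[ℤ] J))).subtype) w') := by
        rw [map_add, map_add]
        abel
      rw [this]
      exact Submodule.add_mem _ hw hw'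
  | zero => exact Submodule.zero_mem _
  | add a b _ _ ha hb => exact Submodule.add_mem _ ha hb
  | neg a _ ha => exact Submodule.neg_mem _ ha

end flat


section flat2

variable (O : Type*) [CommRing O] [Module.Flat ℤ O]
variable (J : Type*) [AddCommGroup J]

theorem lTensor_subtype_injective (A : Submodule ℤ J) :
    Function.Injective (A.subtype.lTensor O) :=
  Module.Flat.lTensor_preserves_injective_linearMap (M := O) A.subtype
    (Submodule.injective_subtype A)

/-- elements of `O ⊗ A ⊆ O ⊗ J` killed by `m` come from `O ⊗ A[m]` -/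
theorem exists_lTensor_ker_of_mem_range (A : Submodule ℤ J) (m : ℤ) (x : O ⊗[ℤ] J)
    (hx : x ∈ LinearMap.range (A.subtype.lTensor O)) (hm : m • x = 0) :
    ∃ z : O ⊗[ℤ] LinearMap.ker (m • (LinearMap.id : A →ₗ[ℤ] A)),
      (A.subtype ∘ₗ (LinearMap.ker (m • (LinearMap.id : A →ₗ[ℤ] A))).subtype).lTensor O z
        = x := by
  obtain ⟨w, rfl⟩ := hx
  have hw : m • w = 0 := by
    apply lTensor_subtype_injective O J A
    rw [map_zsmul, hm, map_zero]
  obtain ⟨z, rfl⟩ := exists_lTensor_eq_of_smul_eq_zero O m w hw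
  refine ⟨z, ?_⟩
  rw [LinearMap.lTensor_comp]
  rfl

end flat2

section ptors

variable (p : ℕ) [Fact p.Prime]
variable {G : Type*} [Group G]
variable (J : Type*) [AddCommGroup J] [DistribMulAction G J]

/-- `J[p]` as a `ℤ`-submodule (in the shape used by row S30) -/
abbrev Jp : Submodule ℤ J := LinearMap.ker (((p : ℕ) : ℤ) • (LinearMap.id : J →ₗ[ℤ] J))

theorem mem_Jp {x : J} : x ∈ Jp p J ↔ p • x = 0 := by
  rw [LinearMap.mem_ker, LinearMap.smul_apply, LinearMap.id_apply, natCast_zsmul]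

theorem Jp_nsmul (x : Jp p J) : p • x = 0 := by
  apply Subtype.ext
  have := (mem_Jp p J).1 x.2
  simpa using this

/-- `J[p]` is a `ZMod p`-module -/
def JpModule : Module (ZMod p) (Jp p J) := AddCommGroup.zmodModule (Jp_nsmul p J)

/-- the action on `J[p]` -/
def actM (g : G) : Jp p J →+ Jp p J where
  toFun x := ⟨g • (x : J), by
    rw [mem_Jp, ← smul_comm, (mem_Jp p J).1 x.2, smul_zero]⟩
  map_zero' := by
    apply Subtype.ext
    simp
  map_add' x y := by
    apply Subtype.ext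
    simp

@[simp] theorem actM_coe (g : G) (x : Jp p J) : ((actM p J g x : Jp p J) : J) = g • (x : J) :=
  rfl

variable (O : Type*) [CommRing O]

/-- the action on `O ⊗ J[p]` -/
def actX₁ (g : G) : (O ⊗[ℤ] Jp p J) →+ (O ⊗[ℤ] Jp p J) :=
  ((actM p J g).toIntLinearMap.lTensor O).toAddMonoidHom

theorem actX₁_tmul (g : G) (o : O) (y : Jp p J) :
    actX₁ p J O g (o ⊗ₜ[ℤ] y) = o ⊗ₜ[ℤ] (actM p J g y) := rfl

/-- the inclusion `O ⊗ J[p] → O ⊗ J` is equivariant -/
theorem lTensor_subtype_actX₁ (g : G) (x : O ⊗[ℤ] Jp p J) :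
    (Jp p J).subtype.lTensor O (actX₁ p J O g x) = actX O J g ((Jp p J).subtype.lTensor O x) := by
  induction x using TensorProduct.induction_on with
  | zero => simp
  | tmul o y =>
    rw [actX₁_tmul, LinearMap.lTensor_tmul, LinearMap.lTensor_tmul, actX_tmul]
    rfl
  | add x y hx hy => rw [map_add, map_add, map_add, map_add, hx, hy]

/-- the `j`-th coordinate `O ⊗ J[p] → J` -/
def coordJ (ℓ : O →+ ZMod p) : (O ⊗[ℤ] Jp p J) →+ J :=
  letI := JpModule p J
  (Jp p J).subtype.toAddMonoidHom.comp (coordMap ℓ)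

theorem coordJ_tmul (ℓ : O →+ ZMod p) (o : O) (y : Jp p J) :
    coordJ p J O ℓ (o ⊗ₜ[ℤ] y) = ((ℓ o).val : ℕ) • (y : J) := by
  letI := JpModule p J
  show (((ℓ o) • y : Jp p J) : J) = _
  have : (ℓ o) • y = ((ℓ o).val : ℕ) • y := by
    rw [← Nat.cast_smul_eq_nsmul (ZMod p), ZMod.natCast_zmod_val]
  rw [this]
  simp

theorem coordJ_equivariant (ℓ : O →+ ZMod p) (g : G) (x : O ⊗[ℤ] Jp p J) :
    coordJ p J O ℓ (actX₁ p J O g x) = g • coordJ p J O ℓ x := by
  induction x using TensorProduct.induction_on with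
  | zero => simp
  | tmul o y =>
    rw [actX₁_tmul, coordJ_tmul, coordJ_tmul, actM_coe, smul_comm]
  | add x y hx hy => rw [map_add, map_add, map_add, hx, hy, smul_add]

theorem eq_zero_of_coordJ_eq_zero {d : ℕ} {o : Fin d → O} {ℓ : Fin d → O →+ ZMod p}
    (h : IsCoordSystem p O o ℓ) (x : O ⊗[ℤ] Jp p J) (hx : ∀ i, coordJ p J O (ℓ i) x = 0) :
    x = 0 := by
  letI := JpModule p J
  apply eq_zero_of_coordMap_eq_zero h x
  intro i
  apply Subtype.ext
  exact hx i

/-- coordinates of elements coming from `O ⊗ B`, `B → J[p]` with image in a subgroup `A`, lie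
in `A` -/
theorem coordJ_lTensor_mem (ℓ : O →+ ZMod p) (A : AddSubgroup J) {B : Type*} [AddCommGroup B]
    (j : B →ₗ[ℤ] Jp p J) (hj : ∀ b, ((j b : Jp p J) : J) ∈ A) (z : O ⊗[ℤ] B) :
    coordJ p J O ℓ (j.lTensor O z) ∈ A := by
  induction z using TensorProduct.induction_on with
  | zero =>
    rw [map_zero, map_zero]
    exact A.zero_mem
  | tmul o b =>
    rw [LinearMap.lTensor_tmul, coordJ_tmul]
    exact A.nsmul_mem (hj b) _
  | add x y hx hy =>
    rw [map_add, map_add]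
    exact A.add_mem hx hy

end ptors


section main

variable (p : ℕ) [Fact p.Prime]
variable (O : Type*) [CommRing O] [Module.Flat ℤ O]
variable {G : Type*} [Group G]
variable (J : Type*) [AddCommGroup J] [DistribMulAction G J]
variable {ι : Type*} (T : ι → J →+ J) (a : ι → O)
variable (hT : ∀ (i : ι) (γ : G) (x : J), T i (γ • x) = γ • T i x)

omit [Fact p.Prime] [Module.Flat ℤ O] in
theorem pow_smul_eq_nsmul (n : ℕ) (x : O ⊗[ℤ] J) : (p : O) ^ n • x = (p ^ n : ℕ) • x := by
  rw [← Nat.cast_pow, Nat.cast_smul_eq_nsmul]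

/-- the action on the Tate eigenmodule as a family of additive maps -/
def actΛ (g : G) : tateEigen (p : O) (tensorOp O T) a →+ tateEigen (p : O) (tensorOp O T) a :=
  (tateRep (ϖ := (p : O)) (a := a) (tensorRep O J) (tensorRep_tensorOp O T hT) g).toAddMonoidHom

/-- **Coinvariants of the Tate eigenmodule.** -/
theorem tate_coinv_core (I : Set G) (hfin : Finite (O ⧸ Ideal.span {(p : O)}))
    (hK : KeyProp J I p) (c : ℕ)
    (hsat : ∀ v : tateEigen (p : O) (tensorOp O T) a,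
      (p : O) ^ c • v ∈ iAug (actΛ p O J T a hT) I ⊤) :
    ∀ v : tateEigen (p : O) (tensorOp O T) a,
      ∃ w ∈ iAug (actΛ p O J T a hT) I ⊤, ∃ u : tateEigen (p : O) (tensorOp O T) a,
        v = w + (p : O) • u := by
  classical
  obtain ⟨d, o, ℓ, hcoord⟩ := exists_coords p O hfin
  -- evaluation maps
  let ev : ℕ → tateEigen (p : O) (tensorOp O T) a →+ O ⊗[ℤ] J :=
    fun m => (tateEval (p : O) (tensorOp O T) a m).toAddMonoidHom
  have hev : ∀ (m : ℕ) (g : G) (v : tateEigen (p : O) (tensorOp O T) a),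
      ev m (actΛ p O J T a hT g v) = actX O J g (ev m v) := fun m g v => rfl
  -- the subgroup `A = I_aug(J[p^(c+1)])`
  set A' : AddSubgroup J := iAug (actJ J) I (torsJ J (p ^ (c + 1))) with hA'
  set A : Submodule ℤ J := AddSubgroup.toIntSubmodule A' with hA
  -- Step 2: `ev₀ v ∈ I_aug((O ⊗ J)[p^(c+1)])`
  have h2 : ∀ v : tateEigen (p : O) (tensorOp O T) a,
      ev 0 v ∈ iAug (actX O J) I ((nsmulAddMonoidHom (α := O ⊗[ℤ] J) (p ^ (c + 1))).ker) := by
    intro v
    have h' := map_mem_iAug (act := actΛ p O J T a hT) (act' := actX O J) (I := I) (ev c)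
      (fun σ _ x => hev c σ x) (Y := ⊤)
      (Y' := (nsmulAddMonoidHom (α := O ⊗[ℤ] J) (p ^ (c + 1))).ker) (fun y _ => by
        rw [AddMonoidHom.mem_ker]
        show (p ^ (c + 1)) • ((y : ℕ → O ⊗[ℤ] J) c) = 0
        rw [← pow_smul_eq_nsmul]
        exact tate_pow_succ_smul y.2 c) (hsat v)
    have e : ev c ((p : O) ^ c • v) = ev 0 v := by
      show (p : O) ^ c • ((v : ℕ → O ⊗[ℤ] J) c) = (v : ℕ → O ⊗[ℤ] J) 0
      have := tate_pow_smul v.2 c 0
      rwa [zero_add] at this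
    rw [e] at h'
    exact h'
  -- Steps 3, 4: `ev₀ v` comes from `O ⊗ (A ∩ J[p])`
  let KA : Submodule ℤ A := LinearMap.ker (((p : ℕ) : ℤ) • (LinearMap.id : A →ₗ[ℤ] A))
  have hKA : ∀ b : KA, (((b : A) : J)) ∈ Jp p J := by
    intro b
    have hb := b.2
    rw [LinearMap.mem_ker, LinearMap.smul_apply, LinearMap.id_apply] at hb
    have := congrArg (fun t : A => (t : J)) hb
    simp only [Submodule.coe_smul, ZeroMemClass.coe_zero] at this
    rw [LinearMap.mem_ker, LinearMap.smul_apply, LinearMap.id_apply]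
    exact this
  let j' : KA →ₗ[ℤ] Jp p J := LinearMap.codRestrict (Jp p J) (A.subtype ∘ₗ KA.subtype) hKA
  have hj' : (Jp p J).subtype ∘ₗ j' = A.subtype ∘ₗ KA.subtype := rfl
  have h4 : ∀ v : tateEigen (p : O) (tensorOp O T) a,
      ∃ z : O ⊗[ℤ] KA, (Jp p J).subtype.lTensor O (j'.lTensor O z) = ev 0 v := by
    intro v
    have h3 := iAug_tors_le_range O J I (p ^ (c + 1)) (ev 0 v) (h2 v)
    have hp0 : ((p : ℕ) : ℤ) • ev 0 v = 0 := by
      rw [natCast_zsmul]
      have := pow_smul_eq_nsmul p O J 1 (ev 0 v)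
      rw [pow_one, pow_one] at this
      rw [← this]
      exact v.2.1
    obtain ⟨z, hz⟩ := exists_lTensor_ker_of_mem_range O J A ((p : ℕ) : ℤ) (ev 0 v) h3 hp0
    refine ⟨z, ?_⟩
    rw [← hz, ← hj', LinearMap.lTensor_comp]
    rfl
  -- Step 5: coordinates
  let ιp : (O ⊗[ℤ] Jp p J) →+ O ⊗[ℤ] J := ((Jp p J).subtype.lTensor O).toAddMonoidHom
  have hιp : Function.Injective ιp := lTensor_subtype_injective O J (Jp p J)
  let Λ₀ : AddSubgroup (O ⊗[ℤ] J) := (⊤ : AddSubgroup (tateEigen (p : O) (tensorOp O T) a)).map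
    (ev 0)
  let Y : AddSubgroup (O ⊗[ℤ] Jp p J) := Λ₀.comap ιp
  have hYstab : ∀ g : G, ∀ y ∈ Y, actX₁ p J O g y ∈ Y := by
    intro g y hy
    obtain ⟨v, -, hv⟩ := hy
    refine ⟨actΛ p O J T a hT g v, trivial, ?_⟩
    show ev 0 (actΛ p O J T a hT g v) = (Jp p J).subtype.lTensor O (actX₁ p J O g y)
    rw [hev, lTensor_subtype_actX₁]
    exact congrArg (actX O J g) hv
  have hQ : ∀ y ∈ Y, ∀ i : Fin d, InSPlus J I p (coordJ p J O (ℓ i) y) := by
    intro y hy i
    obtain ⟨v, -, hv⟩ := hy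
    obtain ⟨z, hz⟩ := h4 v
    have hyz : y = j'.lTensor O z := by
      apply hιp
      show (Jp p J).subtype.lTensor O y = (Jp p J).subtype.lTensor O (j'.lTensor O z)
      rw [hz]
      exact hv.symm
    refine ⟨?_, c + 1, ?_⟩
    · letI := JpModule p J
      exact (mem_Jp p J).1 (coordMap (ℓ i) y).2
    · rw [hyz]
      exact coordJ_lTensor_mem p J O (ℓ i) A' j' (fun b => (b : A).2) z
  have hY : Y ≤ iAug (actX₁ p J O) I Y :=
    le_iAug_of_coords (act := actX₁ p J O) (actJ := actJ J) (I := I) (InSPlus J I p)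
      (fun Z hZ hZQ => hK Z hZ hZQ) d (fun i => coordJ p J O (ℓ i))
      (fun i g x => coordJ_equivariant p J O (ℓ i) g x) Y hYstab
      (fun y _ h0 => eq_zero_of_coordJ_eq_zero p J O hcoord y h0) hQ
  -- Step 6
  intro v
  obtain ⟨z, hz⟩ := h4 v
  have hyY : j'.lTensor O z ∈ Y := ⟨v, trivial, hz.symm⟩
  have h5 : ιp (j'.lTensor O z) ∈ iAug (actX O J) I Λ₀ :=
    map_mem_iAug (act := actX₁ p J O) (act' := actX O J) (I := I) ιp
      (fun σ _ x => lTensor_subtype_actX₁ p J O σ x) (Y := Y) (Y' := Λ₀) (fun y hy => hy)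
      (hY hyY)
  obtain ⟨w, hw, hwv⟩ := exists_mem_iAug_of_mem_iAug_map (act := actΛ p O J T a hT)
    (act' := actX O J) (I := I) (ev 0) (fun σ _ x => hev 0 σ x) (Y := ⊤) h5
  refine ⟨w, hw, ?_⟩
  have h6 : ∀ m, m < 1 → ((v - w : tateEigen (p : O) (tensorOp O T) a) : ℕ → O ⊗[ℤ] J) m = 0 := by
    intro m hm
    obtain rfl : m = 0 := by omega
    show ev 0 (v - w) = 0
    rw [map_sub, hwv]
    show ev 0 v - ιp (j'.lTensor O z) = 0
    rw [sub_eq_zero]
    exact hz.symm
  obtain ⟨u, hu, hvu⟩ := tate_exists_eq_pow_smul (v - w).2 1 h6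
  refine ⟨⟨u, hu⟩, ?_⟩
  rw [← sub_eq_iff_eq_add']
  apply Subtype.ext
  rw [hvu, pow_one]
  rfl

end main

end Fermat.Agent.S33.H452

end
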