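import Fermat.Agent.S33.Spec2
import Fermat.Agent.S33.H452.TateCoinv

/-!
# S33, piece EIG-B, core in the frozen vocabulary of `S33/Spec2.lean`   (helper452)

`tateEigen_geoAt` : `KeyAt I p J → GeoAt (tateRep …) I` for the Tate eigenmodule
`tateEigen p (1 ⊗ T) a ⊆ (ℕ → O ⊗ J)` of row S30 (helper529), `O` a discrete valuation ring of
characteristic `0` with finite residue field and `p ∈ 𝔪`, `J` any `G_ℚ`-module, `I` any subgroup.
-/

set_option autoImplicit false
set_option linter.unusedSectionVars false
set_option linter.style.haveILetI false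

noncomputable section

namespace Fermat.Agent.S33.H452

open IsLocalRing TensorProduct Fermat.Agent.S30 Fermat.Agent.S31

section adapter

variable (p : ℕ) [Fact p.Prime]
variable (O : Type) [CommRing O] [IsDomain O] [IsDiscreteValuationRing O]
  [Finite (ResidueField O)] [CharZero O]
variable (J : Type) [AddCommGroup J] [DistribMulAction GQ J]
variable {ι : Type*} (T : ι → J →+ J) (a : ι → O)

theorem finite_quotient_span_p (hp0 : (p : O) ≠ 0) : Finite (O ⧸ Ideal.span {(p : O)}) := by
  obtain ⟨n, hn⟩ := H529.exists_pow_maximalIdeal_le_span hp0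
  have h1 : Finite (O ⧸ maximalIdeal O ^ n) := by
    have : Finite (O ⧸ maximalIdeal O) := (inferInstance : Finite (ResidueField O))
    exact Ideal.finite_quotient_pow (IsNoetherian.noetherian _) n
  exact Finite.of_surjective (Ideal.Quotient.factor hn) (Ideal.Quotient.factor_surjective hn)

/-- **EIG-B, core.**  `(K)` for `(I, J)` implies GEO for the Tate eigenmodule of `J`. -/
theorem tateEigen_geoAt (hpO : (p : O) ∈ maximalIdeal O)
    (hT : ∀ (i : ι) (γ : GQ) (x : J), T i (γ • x) = γ • T i x)
    (I : Subgroup GQ) (hK : Fermat.Agent.S33.KeyAt I p J) :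
    Fermat.Agent.S33.GeoAt (H529.tateRep (ϖ := (p : O)) (a := a) (H529.tensorRep O J)
      (H529.tensorRep_tensorOp O T hT)) I := by
  have hp0 : (p : O) ≠ 0 := by
    exact_mod_cast (Fact.out : p.Prime).ne_zero
  intro a0 ha0 hsat
  obtain ⟨c, b, hb⟩ := H529.exists_dvd_pow_of_mem_maximalIdeal hpO ha0
  -- the two augmentation subgroups agree
  have hsmul : ∀ (r : O) (x : H529.tateEigen (p : O) (H529.tensorOp O T) a),
      x ∈ iAug (actΛ p O J T a hT) (I : Set GQ) ⊤ →
      r • x ∈ iAug (actΛ p O J T a hT) (I : Set GQ) ⊤ := by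
    intro r x hx
    unfold iAug at hx ⊢
    induction hx using AddSubgroup.closure_induction with
    | mem z hz =>
      obtain ⟨σ, hσ, y, -, rfl⟩ := hz
      refine AddSubgroup.subset_closure ⟨σ, hσ, r • y, trivial, ?_⟩
      rw [smul_sub]
      congr 1
      exact ((H529.tateRep (ϖ := (p : O)) (a := a) (H529.tensorRep O J)
        (H529.tensorRep_tensorOp O T hT) σ).map_smul r y).symm
    | zero => rw [smul_zero]; exact AddSubgroup.zero_mem _
    | add x y _ _ hx hy => rw [smul_add]; exact AddSubgroup.add_mem _ hx hy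
    | neg x _ hx => rw [smul_neg]; exact AddSubgroup.neg_mem _ hx
  have hle1 : ∀ x, x ∈ Fermat.Agent.S33.augSpan (H529.tateRep (ϖ := (p : O)) (a := a)
      (H529.tensorRep O J) (H529.tensorRep_tensorOp O T hT)) I →
      x ∈ iAug (actΛ p O J T a hT) (I : Set GQ) ⊤ := by
    intro x hx
    unfold Fermat.Agent.S33.augSpan at hx
    induction hx using Submodule.span_induction with
    | mem z hz =>
      obtain ⟨σ, hσ, m, rfl⟩ := hz
      exact sub_mem_iAug (act := actΛ p O J T a hT) (I := (I : Set GQ)) (Y := ⊤) hσ trivial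
    | zero => exact AddSubgroup.zero_mem _
    | add x y _ _ hx hy => exact AddSubgroup.add_mem _ hx hy
    | smul r x _ hx => exact hsmul r x hx
  have hle2 : ∀ x, x ∈ iAug (actΛ p O J T a hT) (I : Set GQ) ⊤ →
      x ∈ Fermat.Agent.S33.augSpan (H529.tateRep (ϖ := (p : O)) (a := a)
        (H529.tensorRep O J) (H529.tensorRep_tensorOp O T hT)) I := by
    intro x hx
    unfold iAug at hx
    induction hx using AddSubgroup.closure_induction with
    | mem z hz =>
      obtain ⟨σ, hσ, y, -, rfl⟩ := hz
      exact Submodule.subset_span ⟨σ, hσ, y, rfl⟩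
    | zero => exact Submodule.zero_mem _
    | add x y _ _ hx hy => exact Submodule.add_mem _ hx hy
    | neg x _ hx => exact Submodule.neg_mem _ hx
  have hsat' : ∀ v : H529.tateEigen (p : O) (H529.tensorOp O T) a,
      (p : O) ^ c • v ∈ iAug (actΛ p O J T a hT) (I : Set GQ) ⊤ := by
    intro v
    apply hle1
    rw [hb, mul_comm, mul_smul]
    exact Submodule.smul_mem _ _ (hsat v)
  have hKey : KeyProp J (I : Set GQ) p := fun Z hZ hZQ => hK Z hZ hZQ
  have hcore := tate_coinv_core p O J T a hT (I : Set GQ) (finite_quotient_span_p p O hp0)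
    hKey c hsat'
  rw [eq_top_iff]
  intro v _
  obtain ⟨w, hw, u, rfl⟩ := hcore v
  exact Submodule.add_mem _ (Submodule.mem_sup_left (hle2 w hw))
    (Submodule.mem_sup_right (Submodule.smul_mem_smul hpO Submodule.mem_top))

end adapter

end Fermat.Agent.S33.H452

end
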